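import Fermat.Agent.RTan.Pts2
import Fermat.Agent.RT8X.LocX
import Fermat.Prelude.Def_CuspForm_HeckeGaloisRepDatum
import Fermat.Prelude.Def_GaloisRep_LocalConditions

/-!
# Ordinary adic representations and ordinary matrix representations
-/

set_option autoImplicit false

namespace Fermat.Agent.OrdS

open IsLocalRing Matrix Module
open Fermat.Agent.TWP (Pl Qb)
open Fermat.Agent.DefRing (MatCont Red M2 GQ mapRep matOf matOf_apply mapRep_apply)
open Fermat.Agent.RTan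
open Fermat.Agent.QuadRep (cyc padicHom)
open scoped Pointwise

section conj

variable {p : ℕ} [hp : Fact p.Prime] {A : Type} [CommRing A] [IsLocalRing A]

/-- It suffices to check ordinarity at one place. -/
theorem isOrdinaryAt_of_one (ρ : GaloisRepAdic A) {P₀ : ValuationSubring Qb}
    (hP₀ : P₀.LiesOverPrime p) (h : ∃ L : Submodule A ρ.V,
      (∃ b : Module.Basis (Fin 2) A ρ.V, L = A ∙ b 0) ∧
      (∀ σ ∈ P₀.decompositionSubgroup ℚ, ∀ v ∈ L, ρ.ρ σ v ∈ L) ∧
      (∀ σ ∈ P₀.inertiaSubgroupIn ℚ, ∀ v : ρ.V, ρ.ρ σ v - v ∈ L)) : ρ.IsOrdinaryAt p := by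
  intro P hP
  obtain ⟨g, rfl⟩ := Frob.exists_smul_eq hp.out hP₀ hP
  obtain ⟨L, ⟨b, rfl⟩, hD, hI⟩ := h
  have hinv : ∀ v, ρ.ρ g (ρ.ρ g⁻¹ v) = v := fun v => by
    rw [← Module.End.mul_apply, ← map_mul, mul_inv_cancel, map_one, Module.End.one_apply]
  have hinv' : ∀ v, ρ.ρ g⁻¹ (ρ.ρ g v) = v := fun v => by
    rw [← Module.End.mul_apply, ← map_mul, inv_mul_cancel, map_one, Module.End.one_apply]
  let e : ρ.V ≃ₗ[A] ρ.V := LinearEquiv.ofLinearMap (ρ.ρ g) (ρ.ρ g⁻¹)
    (LinearMap.ext hinv) (LinearMap.ext hinv')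
  have he : ∀ v, e v = ρ.ρ g v := fun _ => rfl
  have hmem : ∀ v, v ∈ A ∙ (b.map e) 0 ↔ ρ.ρ g⁻¹ v ∈ A ∙ b 0 := by
    intro v
    rw [Submodule.mem_span_singleton, Submodule.mem_span_singleton, Basis.map_apply, he]
    constructor
    · rintro ⟨a, rfl⟩
      exact ⟨a, by rw [map_smul, hinv']⟩
    · rintro ⟨a, ha⟩
      refine ⟨a, ?_⟩
      rw [← map_smul, ha, hinv]
  have hgP : g⁻¹ • g • P₀ = P₀ := inv_smul_smul g P₀
  refine ⟨A ∙ (b.map e) 0, ⟨b.map e, rfl⟩, fun σ hσ v hv => ?_, fun σ hσ v => ?_⟩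
  · rw [hmem] at hv ⊢
    have h1 : g⁻¹ * σ * g ∈ P₀.decompositionSubgroup ℚ := by
      have h2 : σ • g • P₀ = g • P₀ := hσ
      show (g⁻¹ * σ * g) • P₀ = P₀
      rw [mul_smul, mul_smul, h2, hgP]
    have h3 := hD _ h1 _ hv
    rw [← Module.End.mul_apply, ← map_mul] at h3 ⊢
    have h4 : g⁻¹ * σ * g * g⁻¹ = g⁻¹ * σ := by group
    rwa [h4] at h3
  · rw [hmem]
    have h1 : g⁻¹ * σ * g ∈ P₀.inertiaSubgroupIn ℚ := by
      have h2 := PTGlob.conj_mem_inertia hσ g⁻¹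
      rwa [hgP, inv_inv] at h2
    have h3 := hI _ h1 (ρ.ρ g⁻¹ v)
    rw [← Module.End.mul_apply, ← map_mul] at h3
    have h4 : g⁻¹ * σ * g * g⁻¹ = g⁻¹ * σ := by group
    rw [h4, map_mul, Module.End.mul_apply, ← map_sub] at h3
    exact h3

end conj

section back

variable {p : ℕ} [hp : Fact p.Prime] {𝒪 : Type} [CommRing 𝒪] {T : Type} [CommRing T]
  [IsLocalRing T] [Algebra 𝒪 T] {χ : GQ → 𝒪}

/-- From matrices to ordinary adic representations. -/
theorem isOrdinaryAt_of_ordLoc (ρ : GaloisRepAdic T) (b : Basis (Fin 2) T ρ.V) {g : M2 T}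
    (h : OrdLoc p χ (matOf ρ b) g) : ρ.IsOrdinaryAt p := by
  refine isOrdinaryAt_of_one ρ (TWP.Pl_lies (ExtCitation.pPrime p)) ?_
  have hg := h.unit
  have h1 : g * g⁻¹ = 1 := Matrix.mul_nonsing_inv _ hg
  have h2 : g⁻¹ * g = 1 := Matrix.nonsing_inv_mul _ hg
  let e : ρ.V ≃ₗ[T] ρ.V := LinearEquiv.ofLinearMap (Matrix.toLin b b g) (Matrix.toLin b b g⁻¹)
    (by rw [← Matrix.toLin_mul b b b, h1, Matrix.toLin_one])
    (by rw [← Matrix.toLin_mul b b b, h2, Matrix.toLin_one])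
  have he : ∀ v, e v = Matrix.toLin b b g v := fun _ => rfl
  have he' : ∀ v, e.symm v = Matrix.toLin b b g⁻¹ v := fun _ => rfl
  -- matrix in the new basis
  have hmat : ∀ σ j, ρ.ρ σ ((b.map e) j) = (cj g hg (matOf ρ b) σ) 0 j • (b.map e) 0 +
      (cj g hg (matOf ρ b) σ) 1 j • (b.map e) 1 := by
    intro σ j
    have h3 : ρ.ρ σ = Matrix.toLin b b (matOf ρ b σ) := by
      rw [matOf_apply]
      exact (Matrix.toLin_toMatrix b b _).symm
    have h4 : e.symm (ρ.ρ σ (e (b j))) = Matrix.toLin b b (cj g hg (matOf ρ b) σ) (b j) := by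
      rw [he, he', h3, cj_apply, Matrix.toLin_mul b b b, Matrix.toLin_mul b b b]
      rfl
    rw [Matrix.toLin_self, Fin.sum_univ_two] at h4
    have h5 := congrArg e h4
    rw [LinearEquiv.apply_symm_apply, map_add, map_smul, map_smul] at h5
    simpa only [Basis.map_apply] using h5
  have hrepr : ∀ v, v ∈ T ∙ (b.map e) 0 ↔ (b.map e).repr v 1 = 0 := by
    intro v
    rw [Submodule.mem_span_singleton]
    constructor
    · rintro ⟨a, rfl⟩
      rw [map_smul, Basis.repr_self, Finsupp.smul_apply, Finsupp.single_apply]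
      simp
    · intro hv
      refine ⟨(b.map e).repr v 0, ?_⟩
      conv_rhs => rw [← (b.map e).sum_repr v, Fin.sum_univ_two, hv, zero_smul, add_zero]
  refine ⟨T ∙ (b.map e) 0, ⟨b.map e, rfl⟩, fun σ hσ v hv => ?_, fun σ hσ v => ?_⟩
  · obtain ⟨a, rfl⟩ := Submodule.mem_span_singleton.mp hv
    rw [map_smul, hmat, h.tri.low σ hσ, zero_smul, add_zero]
    exact Submodule.smul_mem _ _ (Submodule.smul_mem _ _ (Submodule.mem_span_singleton_self _))
  · rw [← (b.map e).sum_repr v, Fin.sum_univ_two, map_add, map_smul, map_smul, hmat, hmat,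
      h.tri.low σ (inertia_le_decomp hσ), h.tri.quo σ hσ, zero_smul, add_zero, one_smul]
    have h3 : (b.map e).repr v 0 • (cj g hg (matOf ρ b) σ) 0 0 • (b.map e) 0 +
        (b.map e).repr v 1 • ((cj g hg (matOf ρ b) σ) 0 1 • (b.map e) 0 + (b.map e) 1) -
        ((b.map e).repr v 0 • (b.map e) 0 + (b.map e).repr v 1 • (b.map e) 1) =
        ((b.map e).repr v 0 * (cj g hg (matOf ρ b) σ) 0 0 +
          (b.map e).repr v 1 * (cj g hg (matOf ρ b) σ) 0 1 - (b.map e).repr v 0) •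
          (b.map e) 0 := by
      rw [sub_smul, add_smul, mul_smul, mul_smul, smul_add]
      abel
    rw [h3]
    exact Submodule.smul_mem _ _ (Submodule.mem_span_singleton_self _)

end back

section cyc

variable {p : ℕ} [hp : Fact p.Prime] {O : Type} [CommRing O] [IsLocalRing O]
  [IsAdicComplete (maximalIdeal O) O] (hpO : (p : O) ∈ maximalIdeal O)

/-- the cyclotomic character -/
theorem cycChar_cyc : CycChar p (fun σ => cyc p O hpO σ) := by
  constructor
  intro n σ a h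
  show cyc p O hpO σ - a ∈ _
  set x : ℤ_[p] := ((cyclotomicCharacter (AlgebraicClosure ℚ) p
    (MulSemiringAction.toRingAut (AlgebraicClosure ℚ ≃ₐ[ℚ] AlgebraicClosure ℚ)
        (AlgebraicClosure ℚ) σ) : ℤ_[p]ˣ) : ℤ_[p]) with hx
  have hcx : cyc p O hpO σ = padicHom p O hpO x := rfl
  obtain ⟨ζ, hζ⟩ := HasEnoughRootsOfUnity.exists_primitiveRoot (AlgebraicClosure ℚ) (p ^ n)
  have h1 := h ζ hζ.pow_eq_one
  have h2 := cyclotomicCharacter.spec p (n := n)
    (MulSemiringAction.toRingAut (AlgebraicClosure ℚ ≃ₐ[ℚ] AlgebraicClosure ℚ)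
        (AlgebraicClosure ℚ) σ) ζ hζ.pow_eq_one
  have h3 : (MulSemiringAction.toRingAut (AlgebraicClosure ℚ ≃ₐ[ℚ] AlgebraicClosure ℚ)
        (AlgebraicClosure ℚ) σ) ζ = σ ζ := rfl
  rw [h3, h1] at h2
  have h4 := (ZMod.natCast_eq_natCast_iff _ _ (p ^ n)).mpr
    (QuadRep.modEq_of_pow_eq hζ (pow_pos hp.out.pos n) h2)
  rw [ZMod.natCast_val, ZMod.cast_id', id] at h4
  -- x - a is a multiple of `p ^ n`
  have h5 : x - (a : ℤ_[p]) ∈ RingHom.ker (PadicInt.toZModPow n : ℤ_[p] →+* ZMod (p ^ n)) := by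
    rw [RingHom.mem_ker, map_sub, map_natCast, sub_eq_zero, h4]
  rw [PadicInt.ker_toZModPow, Ideal.mem_span_singleton] at h5
  obtain ⟨y, hy⟩ := h5
  rw [hcx, Ideal.mem_span_singleton]
  refine ⟨padicHom p O hpO y, ?_⟩
  have h6 := congrArg (padicHom p O hpO) hy
  rw [map_sub, map_natCast, map_mul, map_pow, map_natCast] at h6
  exact h6

variable {T : Type} [CommRing T] [IsLocalRing T] [IsAdicComplete (maximalIdeal T) T] [Algebra O T]
  [IsLocalHom (algebraMap O T)] (hpT : (p : T) ∈ maximalIdeal T)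

omit [IsAdicComplete (maximalIdeal O) O] [IsAdicComplete (maximalIdeal T) T] in
theorem map_pow_mem {n : ℕ} {x : O} (hx : x ∈ maximalIdeal O ^ n) :
    algebraMap O T x ∈ maximalIdeal T ^ n := by
  have h1 : (maximalIdeal O ^ n).map (algebraMap O T) ≤ maximalIdeal T ^ n := by
    rw [Ideal.map_pow]
    exact Ideal.pow_right_mono (Ideal.map_le_iff_le_comap.mpr fun a ha =>
      Ideal.mem_comap.mpr (map_nonunit (algebraMap O T) a ha)) n
  exact h1 (Ideal.mem_map_of_mem _ hx)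

theorem algebraMap_padicHom (x : ℤ_[p]) :
    algebraMap O T (padicHom p O hpO x) = padicHom p T hpT x := by
  refine QuadRep.eq_of_forall_sub_mem_pow fun n => ?_
  have h1 : PadicInt.toZModPow n x = ((PadicInt.toZModPow n x).val : ZMod (p ^ n)) := by
    have : NeZero (p ^ n) := ⟨pow_ne_zero _ hp.out.ne_zero⟩
    rw [ZMod.natCast_val, ZMod.cast_id', id]
  have h2 := QuadRep.padicHom_sub_mem p O hpO n _ x h1
  have h3 := QuadRep.padicHom_sub_mem p T hpT n _ x h1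
  have h4 := map_pow_mem (T := T) h2
  rw [map_sub, map_natCast] at h4
  have h5 := Ideal.sub_mem _ h4 h3
  rwa [sub_sub_sub_cancel_right] at h5

theorem algebraMap_cyc (σ : GQ) : algebraMap O T (cyc p O hpO σ) = cyc p T hpT σ :=
  algebraMap_padicHom hpO hpT _

end cyc

end Fermat.Agent.OrdS
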