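import Fermat.Agent.OrdS.Res
import Fermat.Agent.OrdNew.Main
import Fermat.Agent.OrdOld.Final
import Fermat.Agent.HeckeGal.Burnside
import Fermat.Agent.HeckeGal.S31FromS30

/-!
# Ordinarity at `p` of Hecke algebras of level exactly divisible by `p`
-/

set_option autoImplicit false
set_option linter.unusedSectionVars false

namespace Fermat.Agent.OrdS

open IsLocalRing Matrix Module ModularCurve.Period CongruenceSubgroup
open Fermat.Agent.TWP (Pl Qb)
open Fermat.Agent.DefRing (MatCont Red M2 GQ mapRep matOf matOf_apply mapRep_apply matOf_cont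
  mapRep_cont)
open Fermat.Agent.RTan Fermat.Agent.HeckeHom
open Fermat.Agent.QuadRep (cyc padicHom)
open scoped Pointwise TensorProduct

section frob

variable {A : Type} [CommRing A] [IsLocalRing A]

/-- trace and determinant from the characteristic polynomial -/
theorem trace_det_of_charpoly (ρ : GaloisRepAdic A) (b : Basis (Fin 2) A ρ.V) {σ : GQ} {t d : A}
    (h : LinearMap.charpoly (ρ.ρ σ) = Polynomial.X ^ 2 - Polynomial.C t * Polynomial.X +
      Polynomial.C d) : (matOf ρ b σ).trace = t ∧ (matOf ρ b σ).det = d := by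
  have h1 : (matOf ρ b σ).charpoly = LinearMap.charpoly (ρ.ρ σ) :=
    LinearMap.charpoly_toMatrix (ρ.ρ σ) b
  rw [Matrix.charpoly_fin_two, h] at h1
  have h2 := congrArg (fun P => Polynomial.coeff P 1) h1
  have h3 := congrArg (fun P => Polynomial.coeff P 0) h1
  simp only [Polynomial.coeff_add, Polynomial.coeff_sub, Polynomial.coeff_X_pow,
    Polynomial.coeff_C_mul, Polynomial.coeff_X_one, Polynomial.coeff_C_succ,
    Polynomial.coeff_X_zero, Polynomial.coeff_C_zero, mul_one, mul_zero] at h2 h3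
  norm_num at h2 h3
  exact ⟨h2, h3⟩

/-- spanning in matrix form -/
theorem span_matOf (ρ : GaloisRepAdic A) (b : Basis (Fin 2) A ρ.V)
    (h : Submodule.span A (Set.range ρ.ρ) = ⊤) : Submodule.span A (Set.range (matOf ρ b)) = ⊤ := by
  let e : Module.End A ρ.V ≃ₗ[A] M2 A := (LinearMap.toMatrixAlgEquiv b).toLinearEquiv
  have h1 : Submodule.span A ((e.toLinearMap : Module.End A ρ.V → M2 A) '' Set.range ρ.ρ) = ⊤ := by
    rw [Submodule.span_image e.toLinearMap, h, Submodule.map_top]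
    exact LinearEquiv.range e
  rw [← Set.range_comp] at h1
  exact h1

omit [IsLocalRing A] in
theorem span_mapRep {B : Type} [CommRing B] (f : A →+* B) {r : GQ →* M2 A}
    (h : Submodule.span A (Set.range r) = ⊤) :
    Submodule.span B (Set.range (mapRep f r)) = ⊤ := by
  have key : ∀ x : M2 A, x.map f ∈ Submodule.span B (Set.range (mapRep f r)) := by
    intro x
    have hx : x ∈ Submodule.span A (Set.range r) := by rw [h]; trivial
    induction hx using Submodule.span_induction with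
    | mem x hx =>
      obtain ⟨σ, rfl⟩ := hx
      exact Submodule.subset_span ⟨σ, rfl⟩
    | zero =>
      have h1 : (0 : M2 A).map f = 0 := Matrix.map_zero f (map_zero f)
      rw [h1]; exact Submodule.zero_mem _
    | add x y _ _ hx hy =>
      have h1 : (x + y).map f = x.map f + y.map f := by
        refine Matrix.ext fun i j => ?_
        rw [Matrix.map_apply, Matrix.add_apply, map_add]; rfl
      rw [h1]; exact Submodule.add_mem _ hx hy
    | smul c x _ hx =>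
      have h1 : (c • x).map f = f c • x.map f := by
        refine Matrix.ext fun i j => ?_
        rw [Matrix.map_apply, Matrix.smul_apply, smul_eq_mul, map_mul]; rfl
      rw [h1]; exact Submodule.smul_mem _ _ hx
  rw [eq_top_iff]
  intro Y _
  rw [Matrix.matrix_eq_sum_single Y]
  refine Submodule.sum_mem _ fun i _ => Submodule.sum_mem _ fun j _ => ?_
  have h2 : Matrix.single i j (Y i j) = Y i j • (Matrix.single i j (1 : A)).map f := by
    refine Matrix.ext fun a b => ?_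
    rw [Matrix.smul_apply, Matrix.map_apply, Matrix.single_apply, Matrix.single_apply, smul_eq_mul]
    split_ifs
    · rw [map_one, mul_one]
    · rw [map_zero, mul_zero]
  rw [h2]
  exact Submodule.smul_mem _ _ (key _)

end frob

section eig

/-- eigenvectors attached to characters of the Hecke algebra -/
theorem exists_eig {N : ℕ} [NeZero N] {S : Set ℕ} (hS : ∀ q : ℕ, q.Prime → q ∣ N → q ∈ S)
    {E : Type} [Field E] [IsAlgClosed E] [CharZero E] (θ : CuspForm.heckeAlgebra N 2 S →+* E)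
    (a : ℕ → E) (ha : ∀ (l : ℕ) (hl : l.Prime) (hlN : ¬ l ∣ N) (hlS : l ∉ S),
      θ (CuspForm.heckeAlgebra.T hl hlN hlS) = a l) :
    ∃ φ ∈ parabolicHoms E (Gamma0 N) E, φ ≠ 0 ∧
      ∀ (s : ℕ) (hs : s.Prime) (hsN : ¬ s ∣ N), s ∉ S → heckeHom hs hsN E φ = a s • φ := by
  have hES : ES N := S21.result N
  obtain ⟨v, hv, h⟩ := RT8X.exists_eig_abs (thetaR hES hS E) (thetaR_injective hES hS E) θ
  refine ⟨v, v.2, fun h0 => hv (Subtype.ext h0), fun s hs hsN hsS => ?_⟩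
  have h1 := h (CuspForm.heckeAlgebra.T hs hsN hsS)
  rw [thetaR_tmul, one_smul, theta_T, ha s hs hsN hsS] at h1
  exact congrArg Subtype.val h1

end eig

section main

variable {p M : ℕ} [hp : Fact p.Prime] [NeZero (M * p)] {S : Finset ℕ}
  {𝒪 : Type} [CommRing 𝒪] [IsDomain 𝒪] [IsDiscreteValuationRing 𝒪]
  [IsAdicComplete (maximalIdeal 𝒪) 𝒪]
  {T : Type} [CommRing T] [IsLocalRing T] [IsNoetherianRing T]
  [IsAdicComplete (maximalIdeal T) T] [Algebra 𝒪 T] [IsLocalHom (algebraMap 𝒪 T)]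
  [Module.Finite 𝒪 T] [Module.Free 𝒪 T] [Finite (ResidueField 𝒪)] [CharZero 𝒪]
  (hp2 : p ≠ 2) (hp𝒪 : (p : 𝒪) ∈ maximalIdeal 𝒪) (hM : ¬ p ∣ M)
  (hNS : ∀ q : ℕ, q.Prime → q ∣ M * p → q ∈ S)
  (π : CuspForm.heckeAlgebra (M * p) 2 (↑S : Set ℕ) →+* T)
  (r : GQ →* M2 T) (hc : MatCont T r) (hspan : Submodule.span T (Set.range r) = ⊤)
  (hfrob : ∀ (ℓ : ℕ) (hℓ : ℓ.Prime) (hℓN : ¬ ℓ ∣ M * p) (hℓS : ℓ ∉ (↑S : Set ℕ)),
      ∀ A : ValuationSubring (AlgebraicClosure ℚ), A.LiesOverPrime ℓ →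
      ∀ σ : GQ, A.IsFrobeniusAt σ ℓ →
        (r σ).trace = π (CuspForm.heckeAlgebra.T hℓ hℓN hℓS) ∧ (r σ).det = (ℓ : T))
  {A : ValuationSubring Qb} (hA : A.LiesOverPrime p)
  (hres : LineOver A (mapRep (residue T) r))
  {E : Type} [Field E] [IsAlgClosed E] [Algebra 𝒪 E]
  (hE : Function.Injective (algebraMap 𝒪 E))

omit [NeZero (M * p)] hp in
/-- an auxiliary modulus -/
theorem exists_modulus (hNS : ∀ q : ℕ, q.Prime → q ∣ M * p → q ∈ S) (h0 : M * p ≠ 0) :
    ∃ m : ℕ, m ≠ 0 ∧ M * p ∣ m ∧ ∀ s : ℕ, s.Prime → (s ∣ m ↔ s ∈ S) := by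
  classical
  refine ⟨M * p * ∏ q ∈ S.filter Nat.Prime, q, mul_ne_zero h0 ?_, Dvd.intro _ rfl,
    fun s hs => ⟨fun h => ?_, fun h => ?_⟩⟩
  · rw [Finset.prod_ne_zero_iff]
    intro q hq
    exact (Finset.mem_filter.mp hq).2.ne_zero
  · rcases (Nat.Prime.dvd_mul hs).mp h with h | h
    · exact hNS s hs h
    · obtain ⟨q, hq, hsq⟩ := (Prime.dvd_finsetProd_iff hs.prime _).mp h
      obtain ⟨hq1, hq2⟩ := Finset.mem_filter.mp hq
      rw [(Nat.prime_dvd_prime_iff_eq hs hq2).mp hsq]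
      exact hq1
  · exact (Finset.dvd_prod_of_mem _ (Finset.mem_filter.mpr ⟨h, hs⟩)).mul_left _

include hp2 hp𝒪 hM hNS hc hspan hfrob hA hres hE in
/-- **Lines at the points of the Hecke algebra.** -/
theorem lineOver_pt (f : T →ₐ[𝒪] E) : LineOver A (mapRep (f : T →+* E) r) := by
  classical
  obtain ⟨pt, ι, hι, hf⟩ := exists_opt hE f
  have hM0 : NeZero M := ⟨fun h => NeZero.ne (M * p) (by rw [h, zero_mul])⟩
  have hchE : CharZero E := charZero_of_injective_ringHom hE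
  obtain ⟨m, hm0, hNm, hmS⟩ := exists_modulus hNS (NeZero.ne (M * p))
  have hpA : (p : pt.A) ∈ maximalIdeal pt.A := by
    have h1 : (p : pt.A) = algebraMap 𝒪 pt.A (p : 𝒪) := by rw [map_natCast]
    rw [h1]
    exact map_nonunit (algebraMap 𝒪 pt.A) _ hp𝒪
  have hloc : IsLocalHom (pt.χ : T →+* pt.A) := TW.isLocalHom_of_algHom pt.χ
  let ρ : GQ →* M2 pt.A := mapRep (pt.χ : T →+* pt.A) r
  have hρc : MatCont pt.A ρ := mapRep_cont (pt.χ : T →+* pt.A) hloc r hc
  have hρspan : Submodule.span pt.A (Set.range ρ) = ⊤ := span_mapRep _ hspan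
  let a : ℕ → E := fun l => if h : l.Prime ∧ ¬ l ∣ M * p ∧ l ∉ (↑S : Set ℕ) then
    f (π (CuspForm.heckeAlgebra.T h.1 h.2.1 h.2.2)) else 0
  have ha : ∀ (l : ℕ) (hl : l.Prime) (hlN : ¬ l ∣ M * p) (hlS : l ∉ (↑S : Set ℕ)),
      f (π (CuspForm.heckeAlgebra.T hl hlN hlS)) = a l := by
    intro l hl hlN hlS
    have h : l.Prime ∧ ¬ l ∣ M * p ∧ l ∉ (↑S : Set ℕ) := ⟨hl, hlN, hlS⟩
    have h1 : a l = if h : l.Prime ∧ ¬ l ∣ M * p ∧ l ∉ (↑S : Set ℕ) then
      f (π (CuspForm.heckeAlgebra.T h.1 h.2.1 h.2.2)) else 0 := rfl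
    rw [h1, dif_pos h]
  have hsS : ∀ s : ℕ, s.Prime → ¬ s ∣ m → ¬ s ∣ M * p ∧ s ∉ (↑S : Set ℕ) := fun s hs hsm =>
    ⟨fun h => hsm (h.trans hNm), fun h => hsm ((hmS s hs).mpr (Finset.mem_coe.mp h))⟩
  have htr : ∀ s : ℕ, s.Prime → ¬ s ∣ m → ∀ B : ValuationSubring Qb, B.LiesOverPrime s →
      ∀ σ : GQ, B.IsFrobeniusAt σ s → (ι : pt.A →+* E) (ρ σ).trace = a s := by
    intro s hs hsm B hB σ hσ
    obtain ⟨h1, h2⟩ := hsS s hs hsm
    have h3 : (ρ σ).trace = pt.χ (r σ).trace := by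
      rw [Matrix.trace_fin_two, Matrix.trace_fin_two, map_add]
      rfl
    rw [h3, ← ha s hs h1 h2, ← (hfrob s hs h1 h2 B hB σ hσ).1]
    exact hf _
  have hdet : ∀ s : ℕ, s.Prime → ¬ s ∣ m → ∀ B : ValuationSubring Qb, B.LiesOverPrime s →
      ∀ σ : GQ, B.IsFrobeniusAt σ s → (ρ σ).det = (s : pt.A) := by
    intro s hs hsm B hB σ hσ
    obtain ⟨h1, h2⟩ := hsS s hs hsm
    have h3 : (ρ σ).det = pt.χ (r σ).det := (RingHom.map_det (pt.χ : T →+* pt.A) (r σ)).symm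
    rw [h3, (hfrob s hs h1 h2 B hB σ hσ).2, map_natCast]
  have hρ : mapRep (ι : pt.A →+* E) ρ = mapRep (f : T →+* E) r := by
    refine MonoidHom.ext fun σ => Matrix.ext fun i j => ?_
    exact hf (r σ i j)
  rw [← hρ]
  by_cases hold : ∃ φ ∈ parabolicHoms E (Gamma0 M) E, φ ≠ 0 ∧
      ∀ (s : ℕ) (hs : s.Prime) (hsn : ¬ s ∣ M), ¬ s ∣ m → heckeHom hs hsn E φ = a s • φ
  · obtain ⟨φ, hφ, hφ0, hφT⟩ := hold
    have hline : LineOver A (mapRep (residue pt.A) ρ) := by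
      have h1 : mapRep (residue pt.A) ρ =
          mapRep ((residue pt.A).comp (pt.χ : T →+* pt.A)) r := rfl
      rw [h1]
      refine lineOver_of_local hres _ fun x hx => ?_
      rw [RingHom.comp_apply, residue_eq_zero_iff]
      exact map_nonunit (pt.χ : T →+* pt.A) x hx
    have hord : OrdOld.ResOrd A ρ := by
      obtain ⟨w, hw, -, hI⟩ := hline
      exact ⟨w, hw, hI⟩
    obtain ⟨z, ⟨w, hw, hD, hI, -⟩, -⟩ := OrdOld.ordOldE hpA (ι : pt.A →+* E) hι hM hp2 hm0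
      ((Dvd.intro p rfl).trans hNm) a (φ := ⟨φ, hφ⟩)
      (fun h => hφ0 (congrArg Subtype.val h))
      (fun s hs hsn hsm => Subtype.ext (hφT s hs hsn hsm)) ρ hρc htr (span_mapRep _ hρspan) hA hord
    exact ⟨w, hw, hD, hI⟩
  · have hnew : ∀ φ ∈ parabolicHoms E (Gamma0 M) E,
        (∀ (s : ℕ) (hs : s.Prime) (hsn : ¬ s ∣ M), ¬ s ∣ m → heckeHom hs hsn E φ = a s • φ) →
          φ = 0 := by
      intro φ hφ h
      by_contra h0
      exact hold ⟨φ, hφ, h0, h⟩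
    obtain ⟨φ, hφ, hφ0, hφT⟩ := exists_eig (N := M * p) (S := (↑S : Set ℕ))
      (fun q hq hqN => Finset.mem_coe.mpr (hNS q hq hqN)) ((f : T →+* E).comp π) a ha
    have hex : ∃ φ ∈ parabolicHoms E (Gamma0 (M * p)) E, φ ≠ 0 ∧
        ∀ (s : ℕ) (hs : s.Prime) (hsn : ¬ s ∣ M * p), ¬ s ∣ m →
          heckeHom hs hsn E φ = a s • φ :=
      ⟨φ, hφ, hφ0, fun s hs hsn hsm => hφT s hs hsn (hsS s hs hsm).2⟩
    obtain ⟨w, hw, hD, hI, -⟩ := OrdNew.exists_ord_line hp2 hM hNm hm0 hA a hpA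
      (ι : pt.A →+* E) hι ρ hρc hρspan htr hdet hnew hex
    exact ⟨w, hw, hD, hI⟩

include hp2 hp𝒪 hM hNS hc hspan hfrob in
/-- **Ordinarity over the Hecke algebra, in matrix form.** -/
theorem ordAt_hecke [IsReduced T]
    (hres : LineOver (Pl (ExtCitation.pPrime p)) (mapRep (residue T) r)) :
    (∀ σ, (r σ).det = algebraMap 𝒪 T (cyc p 𝒪 hp𝒪 σ)) ∧ OrdAt p (fun σ => cyc p 𝒪 hp𝒪 σ) r := by
  have hpT : (p : T) ∈ maximalIdeal T := by
    have h1 : (p : T) = algebraMap 𝒪 T (p : 𝒪) := by rw [map_natCast]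
    rw [h1]
    exact map_nonunit (algebraMap 𝒪 T) _ hp𝒪
  have hdet : ∀ σ, (r σ).det = algebraMap 𝒪 T (cyc p 𝒪 hp𝒪 σ) := by
    intro σ
    rw [algebraMap_cyc hp𝒪 hpT]
    exact RT8X.det_eq_cyc hpT hc S (fun l hl hlS A hA τ hτ =>
      (hfrob l hl (fun h => hlS (hNS l hl h)) (fun h => hlS (Finset.mem_coe.mp h)) A hA τ hτ).2) σ
  have hE : Function.Injective (algebraMap 𝒪 (AlgebraicClosure (FractionRing 𝒪))) := by
    rw [IsScalarTower.algebraMap_eq 𝒪 (FractionRing 𝒪) (AlgebraicClosure (FractionRing 𝒪))]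
    exact (algebraMap (FractionRing 𝒪) _).injective.comp (IsFractionRing.injective 𝒪 _)
  refine ⟨hdet, ?_⟩
  have hdet' : ∀ f : T →ₐ[𝒪] AlgebraicClosure (FractionRing 𝒪), ∀ σ,
      (mapRep (f : T →+* AlgebraicClosure (FractionRing 𝒪)) r σ).det =
        algebraMap 𝒪 (AlgebraicClosure (FractionRing 𝒪)) (cyc p 𝒪 hp𝒪 σ) := by
    intro f σ
    have h1 : (mapRep (f : T →+* AlgebraicClosure (FractionRing 𝒪)) r σ).det = f (r σ).det :=
      (RingHom.map_det (f : T →+* AlgebraicClosure (FractionRing 𝒪)) (r σ)).symm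
    rw [h1, hdet, AlgHom.commutes]
  have hl := fun f : T →ₐ[𝒪] AlgebraicClosure (FractionRing 𝒪) =>
    lineOver_pt hp2 hp𝒪 hM hNS π r hc hspan hfrob
      (TWP.Pl_lies (ExtCitation.pPrime p)) hres hE f
  have hord : ∀ f : T →ₐ[𝒪] AlgebraicClosure (FractionRing 𝒪),
      OrdAt p (fun σ => cyc p 𝒪 hp𝒪 σ)
        (mapRep (f : T →+* AlgebraicClosure (FractionRing 𝒪)) r) := by
    intro f
    obtain ⟨w, hw, hD, hI⟩ := hl f
    exact OrdAt.of_line hw (hdet' f) hD hI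
  exact OrdAt.of_family (fun f : T →ₐ[𝒪] AlgebraicClosure (FractionRing 𝒪) => f)
    (fun x hx => pts_injective hE x hx) hord

end main

end Fermat.Agent.OrdS
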