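import Fermat.Agent.OrdS.Asm

/-!
# Residual lines
-/

set_option autoImplicit false

namespace Fermat.Agent.OrdS

open IsLocalRing Matrix Module
open Fermat.Agent.TWP (Pl Qb)
open Fermat.Agent.DefRing (MatCont Red M2 GQ mapRep matOf matOf_apply mapRep_apply matOfRes
  matOfRes_residual matOfRes_apply)
open Fermat.Agent.RTan
open scoped Pointwise TensorProduct

/-- A line stable under the decomposition group, with inertia trivial on the quotient. -/
def LineOver (P : ValuationSubring Qb) {κ : Type} [Field κ] (r : GQ →* M2 κ) : Prop :=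
  ∃ w : Fin 2 → κ, w ≠ 0 ∧ (∀ s ∈ P.decompositionSubgroup ℚ, ∃ c : κ, r s *ᵥ w = c • w) ∧
    (∀ s ∈ P.inertiaSubgroupIn ℚ, ∀ u : Fin 2 → κ, ∃ c : κ, r s *ᵥ u - u = c • w)

section map

variable {P : ValuationSubring Qb} {κ κ' : Type} [Field κ] [Field κ'] (j : κ →+* κ')

theorem map_mulVec (M : M2 κ) (w : Fin 2 → κ) :
    (M.map j) *ᵥ (fun i => j (w i)) = fun i => j ((M *ᵥ w) i) := by
  funext i
  rw [mulVec, mulVec, dotProduct, dotProduct, map_sum]
  refine Finset.sum_congr rfl fun k _ => ?_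
  rw [map_mul, Matrix.map_apply]

theorem LineOver.map {r : GQ →* M2 κ} (h : LineOver P r) : LineOver P (mapRep j r) := by
  obtain ⟨w, hw, hD, hI⟩ := h
  refine ⟨fun i => j (w i), fun h0 => hw ?_, fun s hs => ?_, fun s hs u => ?_⟩
  · funext i
    have h1 := congrFun h0 i
    exact (map_eq_zero_iff j j.injective).mp h1
  · obtain ⟨c, hc⟩ := hD s hs
    refine ⟨j c, ?_⟩
    have h1 := map_mulVec j (r s) w
    change ((r s).map j) *ᵥ _ = _
    rw [h1, hc]
    funext i
    rw [Pi.smul_apply, Pi.smul_apply, smul_eq_mul, smul_eq_mul, map_mul]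
  · have key : ∀ i : Fin 2, ∃ c : κ', ((r s).map j) *ᵥ Pi.single i 1 - Pi.single i 1 =
        c • fun i => j (w i) := by
      intro i
      obtain ⟨c, hc⟩ := hI s hs (Pi.single i 1)
      refine ⟨j c, ?_⟩
      have h1 := map_mulVec j (r s) (Pi.single i 1)
      have h2 : (fun k => j ((Pi.single i 1 : Fin 2 → κ) k)) = Pi.single i 1 := by
        funext k
        rw [Pi.single_apply, Pi.single_apply]
        split_ifs
        · exact map_one j
        · exact map_zero j
      rw [h2] at h1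
      rw [h1, ← h2]
      funext k
      have h3 := congrArg j (congrFun hc k)
      rw [Pi.sub_apply, map_sub, Pi.smul_apply, smul_eq_mul, map_mul] at h3
      rw [Pi.sub_apply, Pi.smul_apply, smul_eq_mul, ← h3]
    obtain ⟨c0, h0⟩ := key 0
    obtain ⟨c1, h1⟩ := key 1
    have hu : u = u 0 • Pi.single 0 1 + u 1 • Pi.single 1 1 := by
      funext k
      fin_cases k <;> simp
    refine ⟨u 0 * c0 + u 1 * c1, ?_⟩
    change ((r s).map j) *ᵥ u - u = _
    conv_lhs => rw [hu]
    rw [mulVec_add, mulVec_smul, mulVec_smul, add_sub_add_comm, ← smul_sub, ← smul_sub, h0, h1,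
      smul_smul, smul_smul, add_smul]

end map

section adic

variable {p : ℕ} {A : Type} [CommRing A] [IsLocalRing A]

/-- ordinary residual representations have a line in matrix form -/
theorem lineOver_of_residual (ρ : GaloisRepAdic A) (b : Basis (Fin 2) A ρ.V)
    (h : (GaloisRepAdic.ofResidualGaloisRep ρ.residual).IsOrdinaryAt p)
    {P : ValuationSubring Qb} (hP : P.LiesOverPrime p) :
    LineOver P (mapRep (residue A) (matOf ρ b)) := by
  have h' : ∃ b₀ : Basis (Fin 2) (ResidueField A) ρ.residual.V,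
      (∀ σ ∈ P.decompositionSubgroup ℚ, ∀ v ∈ (ResidueField A) ∙ b₀ 0,
        ρ.residual.ρ σ v ∈ (ResidueField A) ∙ b₀ 0) ∧
      (∀ σ ∈ P.inertiaSubgroupIn ℚ, ∀ v : ρ.residual.V,
        ρ.residual.ρ σ v - v ∈ (ResidueField A) ∙ b₀ 0) := by
    obtain ⟨L, ⟨b₀, rfl⟩, hD, hI⟩ := h P hP
    exact ⟨b₀, hD, hI⟩
  clear h
  obtain ⟨b₀, hD, hI⟩ := h'
  rw [← matOfRes_residual]
  set bb : Basis (Fin 2) (ResidueField A) ρ.residual.V :=
    Algebra.TensorProduct.basis (ResidueField A) b with hbb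
  have hv : ∀ (σ : GQ) (v : ρ.residual.V), matOfRes ρ.residual bb σ *ᵥ (fun i => bb.repr v i) =
      fun i => bb.repr (ρ.residual.ρ σ v) i := fun σ v =>
    LinearMap.toMatrix_mulVec_repr bb bb (ρ.residual.ρ σ) v
  refine ⟨fun i => bb.repr (b₀ 0) i, fun h0 => ?_, fun s hs => ?_, fun s hs u => ?_⟩
  · have h1 : bb.repr (b₀ 0) = 0 := Finsupp.ext fun i => congrFun h0 i
    exact b₀.ne_zero 0 ((LinearEquiv.map_eq_zero_iff bb.repr).mp h1)
  · have h1 := hD s hs (b₀ 0) (Submodule.mem_span_singleton_self _)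
    obtain ⟨c, hc⟩ := Submodule.mem_span_singleton.mp h1
    refine ⟨c, ?_⟩
    rw [hv, ← hc, map_smul]
    rfl
  · have h0 : ∃ v : ρ.residual.V, (fun i => bb.repr v i) = u := by
      refine ⟨bb.equivFun.symm u, ?_⟩
      exact bb.equivFun.apply_symm_apply u
    obtain ⟨v, rfl⟩ := h0
    have h1 := hI s hs v
    obtain ⟨c, hc⟩ := Submodule.mem_span_singleton.mp h1
    refine ⟨c, ?_⟩
    rw [hv]
    have h3 := congrArg bb.repr hc
    rw [map_smul, map_sub] at h3
    funext i
    exact (DFunLike.congr_fun h3 i).symm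

end adic

section red

variable {𝒪 : Type} [CommRing 𝒪] [IsLocalRing 𝒪] {T : Type} [CommRing T] [IsLocalRing T]
  [Algebra 𝒪 T]

/-- reduction of matrix representations -/
theorem red_mapRep (π : T →+* ResidueField 𝒪) (hπ : ∀ o, π (algebraMap 𝒪 T o) = residue 𝒪 o)
    (r : GQ →* M2 T) : Red (mapRep π r) r := by
  intro σ i j o ho
  rw [← RT8J.pi_eq_zero_iff π hπ, map_sub, hπ, ho, mapRep_apply, sub_self]

theorem lineOver_of_local {κ : Type} [Field κ] {P : ValuationSubring Qb} {r : GQ →* M2 T}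
    (h : LineOver P (mapRep (residue T) r)) (f : T →+* κ) (hf : ∀ x ∈ maximalIdeal T, f x = 0) :
    LineOver P (mapRep f r) := by
  let j : ResidueField T →+* κ := Ideal.Quotient.lift (maximalIdeal T) f hf
  have h1 : mapRep f r = mapRep j (mapRep (residue T) r) := by
    refine MonoidHom.ext fun σ => Matrix.ext fun a b => ?_
    rw [mapRep_apply, mapRep_apply, mapRep_apply]
    exact (Ideal.Quotient.lift_mk _ _ _).symm
  rw [h1]
  exact h.map j

end red

end Fermat.Agent.OrdS
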